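import Fermat.Agent.RT.Algebra.Ultralimit
import Fermat.Agent.RT.Algebra.Finite
import Fermat.Agent.RT.Algebra.Limit

/-!
# Transfer along additive maps intertwining the generators, and finiteness over power series rings
-/

set_option autoImplicit false

namespace Fermat.Agent.Lifting

open IsLocalRing MvPowerSeries
open Fermat.Agent.RT.Algebra

/-- An additive map matching the action of the generators maps the submodules they cut out into
each other. -/
theorem map_mem_ofList_smul {A B N N' : Type*} [CommRing A] [CommRing B] [AddCommGroup N]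
    [Module A N] [AddCommGroup N'] [Module B N'] (e : N →+ N') {l : List A} {l' : List B}
    (hl : ∀ a ∈ l, ∃ b ∈ l', ∀ x, e (a • x) = b • e x) {x : N}
    (hx : x ∈ Ideal.ofList l • (⊤ : Submodule A N)) :
    e x ∈ Ideal.ofList l' • (⊤ : Submodule B N') := by
  induction hx using Submodule.smul_induction_on' with
  | smul a ha y _ =>
    suffices h : ∀ y, e (a • y) ∈ Ideal.ofList l' • (⊤ : Submodule B N') from h y
    change a ∈ Submodule.span A {r | r ∈ l} at ha
    induction ha using Submodule.span_induction with
    | mem c hc =>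
      intro y
      obtain ⟨b, hb, h⟩ := hl c hc
      rw [h]
      exact Submodule.smul_mem_smul (Ideal.subset_span hb) Submodule.mem_top
    | zero => simp
    | add c c' _ _ h h' =>
      intro y
      rw [add_smul, map_add]
      exact add_mem (h y) (h' y)
    | smul c a' _ h =>
      intro y
      rw [smul_eq_mul, mul_comm, mul_smul]
      exact h _
  | add x _ y _ h h' =>
    rw [map_add]
    exact add_mem h h'

/-- An additive equivalence matching the generators preserves the order of the quotient. -/
theorem card_quotient_ofList_congr {A B N N' : Type*} [CommRing A] [CommRing B] [AddCommGroup N]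
    [Module A N] [AddCommGroup N'] [Module B N'] (e : N ≃+ N') {l : List A} {l' : List B}
    (hl : ∀ a ∈ l, ∃ b ∈ l', ∀ x, e (a • x) = b • e x)
    (hl' : ∀ b ∈ l', ∃ a ∈ l, ∀ x, e (a • x) = b • e x) :
    Nat.card (N ⧸ (Ideal.ofList l • ⊤ : Submodule A N)) =
      Nat.card (N' ⧸ (Ideal.ofList l' • ⊤ : Submodule B N')) := by
  refine Nat.card_congr (QuotientAddGroup.congr _ _ e (le_antisymm ?_ fun y hy => ?_)).toEquiv
  · rintro _ ⟨x, hx, rfl⟩
    exact map_mem_ofList_smul e.toAddMonoidHom hl hx
  · refine ⟨e.symm y, map_mem_ofList_smul e.symm.toAddMonoidHom (fun b hb => ?_) hy,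
      e.apply_symm_apply y⟩
    obtain ⟨a, ha, h⟩ := hl' b hb
    exact ⟨a, ha, fun x => e.injective (by simp [h])⟩

/-- The quotient of a finite power of a ring by an ideal. -/
theorem card_pi_quotient {A : Type*} [CommRing A] (J : Ideal A) (d : ℕ) :
    Nat.card ((Fin d → A) ⧸ (J • ⊤ : Submodule A (Fin d → A))) = Nat.card (A ⧸ J) ^ d := by
  classical
  let π : (Fin d → A) →ₗ[A] (Fin d → A ⧸ J) :=
    LinearMap.pi fun i => J.mkQ ∘ₗ LinearMap.proj i
  have hker : LinearMap.ker π = J • ⊤ := by
    refine le_antisymm (fun v hv => ?_) (Submodule.smul_le.mpr fun a ha v _ => ?_)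
    · rw [← Finset.univ_sum_single v]
      refine Submodule.sum_mem _ fun i _ => ?_
      have hi : v i ∈ J := (Submodule.Quotient.mk_eq_zero J).mp (congrFun hv i)
      rw [show Pi.single (M := fun _ : Fin d => A) i (v i) = v i • Pi.single i (1 : A) by
        rw [← Pi.single_smul', smul_eq_mul, mul_one]]
      exact Submodule.smul_mem_smul hi Submodule.mem_top
    · rw [LinearMap.mem_ker]
      funext i
      exact (Submodule.Quotient.mk_eq_zero J).mpr (Ideal.mul_mem_right _ _ ha)
  have hsurj : Function.Surjective π := fun v => by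
    choose w hw using fun i => Submodule.mkQ_surjective J (v i)
    exact ⟨w, funext hw⟩
  rw [Nat.card_congr ((Submodule.quotEquivOfEq _ _ hker.symm).trans
    (π.quotKerEquivOfSurjective hsurj)).toEquiv, Nat.card_pi]
  simp

variable {O : Type*} [CommRing O] [IsLocalRing O] [IsNoetherianRing O]
  [IsAdicComplete (maximalIdeal O) O] [Finite (ResidueField O)] {σ : Type*} [Finite σ]

theorem isPrecomplete_maximalIdeal_mvPowerSeries :
    IsPrecomplete (maximalIdeal (MvPowerSeries σ O)) (MvPowerSeries σ O) := by
  refine ⟨fun f hf => ?_⟩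
  let U : Ultrafilter ℕ := Filter.hyperfilter ℕ
  obtain ⟨L, hL⟩ := exists_ultralimit U f
  refine ⟨L, fun n => ?_⟩
  have hU : ∀ᶠ k in (U : Filter ℕ), n ≤ k :=
    Filter.hyperfilter_le_cofinite (by
      rw [Nat.cofinite_eq_atTop]; exact Filter.eventually_ge_atTop n)
  obtain ⟨k, h1, h2⟩ := ((hL n).and hU).exists
  rw [SModEq.sub_mem, smul_eq_mul, Ideal.mul_top]
  have h3 := SModEq.sub_mem.mp (hf h2)
  rw [smul_eq_mul, Ideal.mul_top] at h3
  simpa using add_mem h3 h1

omit [IsNoetherianRing O] [IsAdicComplete (maximalIdeal O) O] [Finite (ResidueField O)] [Finite σ] in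
/-- A module over a power series ring which a matrix action embeds in a power of a separated ring
with finite quotients is separated. -/
theorem isHausdorff_of_matrix {S : Type*} [CommRing S] [IsLocalRing S] [IsNoetherianRing S]
    [Finite (ResidueField S)] {d : ℕ}
    (L : MvPowerSeries σ O →+* Matrix (Fin d) (Fin d) S) {N : Type*} [AddCommGroup N]
    [Module (MvPowerSeries σ O) N] (e : N ≃+ (Fin d → S))
    (he : ∀ f x, e (f • x) = (L f).mulVec (e x)) :
    IsHausdorff (maximalIdeal (MvPowerSeries σ O)) N := by
  refine ⟨fun x hx => e.map_eq_zero_iff.mp (funext fun i => ?_)⟩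
  refine IsHausdorff.haus (I := maximalIdeal S) inferInstance _ fun j => ?_
  rw [SModEq.zero, smul_eq_mul, Ideal.mul_top]
  have : Finite (S ⧸ maximalIdeal S ^ j) := finite_quotient_pow j
  let Q := (Ideal.Quotient.mk (maximalIdeal S ^ j)).mapMatrix.comp L
  have h := hx (Nat.card (Matrix (Fin d) (Fin d) (S ⧸ maximalIdeal S ^ j)))
  rw [SModEq.zero] at h
  clear hx
  revert i
  induction h using Submodule.smul_induction_on' with
  | smul a ha y _ =>
    intro i
    have h0 := map_eq_zero_of_mem_pow_card Q ha
    rw [he, Matrix.mulVec, dotProduct]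
    refine Ideal.sum_mem _ fun k _ => Ideal.mul_mem_right _ _ ?_
    exact Ideal.Quotient.eq_zero_iff_mem.mp (congrFun (congrFun h0 i) k)
  | add u _ v _ h1 h2 =>
    intro i
    rw [map_add, Pi.add_apply]
    exact add_mem (h1 i) (h2 i)

end Fermat.Agent.Lifting
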