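import Mathlib

/-!
# A Taylor–Wiles level over the minimal ring and module

`TWDatum O p r d n R M₀` records a quotient `A` of `O⟦x₁, …, x_r⟧` above `R`, a module `M` free of
rank `d` over `O[(ℤ/pⁿ)ʳ]` with the operators `y i` of the generators, and the relation between
`t i ∈ A` and `y i`; the coinvariants of `M` are `M₀`.
-/

set_option autoImplicit false

noncomputable section

namespace Fermat.Agent.Lifting

open IsLocalRing MvPowerSeries

/-- One Taylor–Wiles level over the minimal ring `R` and minimal module `M₀`. -/
structure TWDatum (O : Type) [CommRing O] (p r d n : ℕ) (R : Type) [CommRing R] [Algebra O R]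
    (M₀ : Type) [AddCommGroup M₀] [Module O M₀] [Module R M₀] : Type 1 where
  /-- The deformation ring of the level. -/
  A : Type
  [ringA : CommRing A]
  [algA : Algebra O A]
  γ : MvPowerSeries (Fin r) O →ₐ[O] A
  γ_surjective : Function.Surjective γ
  π : A →ₐ[O] R
  π_surjective : Function.Surjective π
  t : Fin r → A
  ker_π : RingHom.ker π = Ideal.span (Set.range t)
  /-- The module of the level. -/
  M : Type
  [addM : AddCommGroup M]
  [modM : Module O M]
  [modAM : Module A M]
  [towerAM : IsScalarTower O A M]
  y : Fin r → Module.End O M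
  y_comm : ∀ i j, y i * y j = y j * y i
  y_linear : ∀ i (a : A) (m : M), y i (a • m) = a • y i m
  y_pow : ∀ i, y i ^ p ^ n = 1
  basis : Fin d → M
  basis_bijective : Function.Bijective fun c : Fin d × (Fin r → Fin (p ^ n)) →₀ O =>
    c.sum fun iv x => x • ((List.ofFn fun j => y j ^ (iv.2 j : ℕ)).prod) (basis iv.1)
  t_rel : ∀ i (m : M),
    (t i * t i) • m = (1 + t i) • (y i m + (y i ^ (p ^ n - 1)) m - (2 : O) • m)
  ω : M →ₗ[O] M₀
  ω_surjective : Function.Surjective ω
  ω_linear : ∀ (a : A) (m : M), ω (a • m) = π a • ω m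
  ker_ω : LinearMap.ker ω = ⨆ i, LinearMap.range (y i - 1)

attribute [instance] TWDatum.ringA TWDatum.algA TWDatum.addM TWDatum.modM TWDatum.modAM
  TWDatum.towerAM

end Fermat.Agent.Lifting
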