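import Mathlib

/-!
# Replacing members of a regular sequence, and the order of the quotient by squares

Over a Noetherian local ring a member of a regular sequence may be replaced by any element which is
regular on whatever it is regular on; squaring all members of part of a regular sequence raises the
order of the quotient to a power of two.
-/

set_option autoImplicit false

namespace Fermat.Agent.Lifting

open RingTheory.Sequence IsLocalRing
open scoped Pointwise

variable {P : Type*} [CommRing P] [IsLocalRing P] {N : Type*} [AddCommGroup N] [Module P N]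
  [IsNoetherian P N]

theorem ofList_eq_of_perm {R : Type*} [CommRing R] {l l' : List R} (h : List.Perm l l') :
    Ideal.ofList l = Ideal.ofList l' :=
  congrArg Ideal.span (Set.ext fun _ => h.mem_iff)

theorem isWeaklyRegular_replace {l₁ l₂ : List P} {a b : P}
    (h : IsWeaklyRegular N (l₁ ++ a :: l₂)) (hmem : ∀ x ∈ l₁ ++ a :: l₂, x ∈ maximalIdeal P)
    (hb : b ∈ maximalIdeal P)
    (hab : IsSMulRegular (N ⧸ (Ideal.ofList (l₁ ++ l₂) • ⊤ : Submodule P N)) a →
      IsSMulRegular (N ⧸ (Ideal.ofList (l₁ ++ l₂) • ⊤ : Submodule P N)) b) :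
    IsWeaklyRegular N (l₁ ++ b :: l₂) := by
  have p1 : ∀ x : P, List.Perm (l₁ ++ x :: l₂) ((l₁ ++ l₂) ++ [x]) := fun x =>
    List.perm_middle.trans (List.perm_append_singleton x (l₁ ++ l₂)).symm
  have h1 := IsLocalRing.isWeaklyRegular_of_perm_of_subset_maximalIdeal h (p1 a) hmem
  rw [isWeaklyRegular_append_iff, isWeaklyRegular_singleton_iff] at h1
  have h2 : IsWeaklyRegular N ((l₁ ++ l₂) ++ [b]) := by
    rw [isWeaklyRegular_append_iff, isWeaklyRegular_singleton_iff]
    exact ⟨h1.1, hab h1.2⟩
  refine IsLocalRing.isWeaklyRegular_of_perm_of_subset_maximalIdeal h2 (p1 b).symm fun x hx => ?_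
  simp only [List.mem_append, List.mem_singleton] at hx
  rcases hx with (hx | hx) | rfl
  · exact hmem x (List.mem_append_left _ hx)
  · exact hmem x (List.mem_append_right _ (List.mem_cons_of_mem _ hx))
  · exact hb

theorem isWeaklyRegular_map_replace {ι : Type*} (f g : ι → P)
    (hf : ∀ i, f i ∈ maximalIdeal P) (hg : ∀ i, g i ∈ maximalIdeal P)
    (hfg : ∀ (L : Submodule P N) i, IsSMulRegular (N ⧸ L) (f i) → IsSMulRegular (N ⧸ L) (g i))
    (l : List ι) (s pre : List P) (hs : ∀ x ∈ s, x ∈ maximalIdeal P)
    (hpre : ∀ x ∈ pre, x ∈ maximalIdeal P) (h : IsWeaklyRegular N (pre ++ (l.map f ++ s))) :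
    IsWeaklyRegular N (pre ++ (l.map g ++ s)) := by
  induction l generalizing pre with
  | nil => exact h
  | cons i t ih =>
    have h1 : IsWeaklyRegular N (pre ++ g i :: (t.map f ++ s)) := by
      refine isWeaklyRegular_replace h (fun x hx => ?_) (hg i) (hfg _ i)
      simp only [List.mem_append, List.mem_cons, List.mem_map] at hx
      rcases hx with hx | rfl | ⟨j, -, rfl⟩ | hx
      exacts [hpre x hx, hf i, hf j, hs x hx]
    have h2 := ih (pre ++ [g i]) (fun x hx => ?_) (by simpa using h1)
    · simpa using h2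
    · simp only [List.mem_append, List.mem_singleton] at hx
      rcases hx with hx | rfl
      exacts [hpre x hx, hg i]

omit [IsLocalRing P] [IsNoetherian P N] in
/-- The quotient by the square of a regular element has the square of the order. -/
theorem card_quotSMulTop_sq {b : P} (hb : IsSMulRegular N b) :
    Nat.card (QuotSMulTop (b ^ 2) N) = Nat.card (QuotSMulTop b N) ^ 2 := by
  let g : N →ₗ[P] QuotSMulTop (b ^ 2) N :=
    ((b ^ 2) • (⊤ : Submodule P N)).mkQ ∘ₗ (b • LinearMap.id)
  have hmem : ∀ (c : P) (x : N), x ∈ c • (⊤ : Submodule P N) ↔ ∃ w, c • w = x := fun c x => by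
    rw [Submodule.mem_smul_pointwise_iff_exists]
    simp
  have hker : LinearMap.ker g = b • (⊤ : Submodule P N) := by
    ext x
    rw [LinearMap.mem_ker, hmem]
    change Submodule.Quotient.mk (b • x) = 0 ↔ _
    rw [Submodule.Quotient.mk_eq_zero, hmem]
    simp only [sq, mul_smul]
    exact ⟨fun ⟨w, hw⟩ => ⟨w, hb hw⟩, fun ⟨w, hw⟩ => ⟨w, by rw [hw]⟩⟩
  have hrange : LinearMap.range g =
      (b • (⊤ : Submodule P N)).map ((b ^ 2) • (⊤ : Submodule P N)).mkQ := by
    simp only [g, LinearMap.range_comp]
    congr 1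
    ext x
    rw [LinearMap.mem_range, hmem]
    simp
  have hle : (b ^ 2) • (⊤ : Submodule P N) ≤ b • (⊤ : Submodule P N) := fun x hx => by
    obtain ⟨w, rfl⟩ := (hmem _ _).mp hx
    exact (hmem _ _).mpr ⟨b • w, by rw [sq, mul_smul]⟩
  have e1 : Nat.card ↥(LinearMap.range g) = Nat.card (QuotSMulTop b N) :=
    (Nat.card_congr g.quotKerEquivRange.toEquiv).symm.trans
      (Nat.card_congr (Submodule.quotEquivOfEq _ _ hker).toEquiv)
  have e2 : Nat.card (QuotSMulTop (b ^ 2) N ⧸ LinearMap.range g) = Nat.card (QuotSMulTop b N) :=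
    (Nat.card_congr (Submodule.quotEquivOfEq _ _ hrange).toEquiv).trans
      (Nat.card_congr (Submodule.quotientQuotientEquivQuotient _ _ hle).toEquiv)
  rw [Submodule.card_eq_card_quotient_mul_card (LinearMap.range g), e1, e2, sq]

theorem card_quotient_map_sq {ι : Type*} (f : ι → P) (hf : ∀ i, f i ∈ maximalIdeal P)
    (l : List ι) (s pre : List P) (hs : ∀ x ∈ s, x ∈ maximalIdeal P)
    (hpre : ∀ x ∈ pre, x ∈ maximalIdeal P) (h : IsWeaklyRegular N (pre ++ (l.map f ++ s))) :
    Nat.card (N ⧸ (Ideal.ofList (pre ++ (l.map (fun i => f i ^ 2) ++ s)) • ⊤ : Submodule P N)) =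
      Nat.card (N ⧸ (Ideal.ofList (pre ++ (l.map f ++ s)) • ⊤ : Submodule P N)) ^ 2 ^ l.length := by
  induction l generalizing pre with
  | nil => simp
  | cons i t ih =>
    have hall : ∀ x ∈ pre ++ ((i :: t).map f ++ s), x ∈ maximalIdeal P := fun x hx => by
      simp only [List.mem_append, List.mem_map] at hx
      rcases hx with hx | ⟨j, -, rfl⟩ | hx
      exacts [hpre x hx, hf j, hs x hx]
    have hsq : f i ^ 2 ∈ maximalIdeal P := Ideal.pow_mem_of_mem _ (hf i) 2 (by norm_num)
    have h1 : IsWeaklyRegular N (pre ++ f i ^ 2 :: (t.map f ++ s)) :=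
      isWeaklyRegular_replace h hall hsq fun hr => hr.pow 2
    have h2 := ih (pre ++ [f i ^ 2]) (fun x hx => ?_) (by simpa using h1)
    swap
    · simp only [List.mem_append, List.mem_singleton] at hx
      rcases hx with hx | rfl
      exacts [hpre x hx, hsq]
    simp only [List.append_assoc, List.singleton_append] at h2
    simp only [List.map_cons, List.cons_append, List.length_cons]
    rw [h2, pow_succ' 2 t.length, pow_mul]
    congr 1
    have p1 : ∀ x : P, List.Perm (pre ++ x :: (t.map f ++ s)) (x :: (pre ++ (t.map f ++ s))) :=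
      fun x => List.perm_middle
    rw [ofList_eq_of_perm (p1 _), ofList_eq_of_perm (p1 _),
      Nat.card_congr (Submodule.quotOfListConsSMulTopEquivQuotSMulTopOuter N _ _).toEquiv,
      Nat.card_congr (Submodule.quotOfListConsSMulTopEquivQuotSMulTopOuter N _ _).toEquiv]
    refine card_quotSMulTop_sq ?_
    have h3 := IsLocalRing.isWeaklyRegular_of_perm_of_subset_maximalIdeal h
      ((p1 (f i)).trans (List.perm_append_singleton _ _).symm) hall
    rw [isWeaklyRegular_append_iff, isWeaklyRegular_singleton_iff] at h3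
    exact h3.2

omit [IsLocalRing P] [IsNoetherian P N] in
/-- A sequence regular on a nonzero free module is regular on the ring. -/
theorem isWeaklyRegular_self_of_free {κ : Type*} (B : Module.Basis κ P N) (k : κ) {l : List P}
    (h : IsWeaklyRegular N l) : IsWeaklyRegular P l := by
  rw [isWeaklyRegular_iff] at h ⊢
  intro i hi
  have h' := (isSMulRegular_quotient_iff_mem_of_smul_mem _ _).mp (h i hi)
  rw [isSMulRegular_quotient_iff_mem_of_smul_mem]
  intro x hx
  rw [smul_eq_mul, Ideal.mul_top] at hx ⊢
  have hmem := h' (x • B k) (by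
    rw [← mul_smul]
    exact Submodule.smul_mem_smul (by simpa [smul_eq_mul] using hx) Submodule.mem_top)
  have h2 := Submodule.mem_map_of_mem (f := B.coord k) hmem
  rw [Submodule.map_smul''] at h2
  have h3 := Submodule.smul_mono le_rfl le_top h2
  rw [Ideal.smul_top_eq_map] at h3
  simpa [Module.Basis.coord_apply] using h3

end Fermat.Agent.Lifting
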