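import Fermat.Agent.Lifting.Patch.Limit
import Fermat.Agent.Lifting.Patch.RegularSeq
import Fermat.Agent.Lifting.Patch.Transfer
import Fermat.Agent.Patching.FreeOfDepth

/-!
# The minimal theorem from Taylor–Wiles levels

The limit module `O⟦Y⟧ᵈ` is finite over `O⟦x⟧` and the squares `(τ i) ^ 2` act on it as
`(Y i) ^ 2` up to units, so it is free over `O⟦x⟧`, `(τ, ϖ)` is regular, and counting the points
of the quotients modulo `ϖ` identifies `M₀` with the quotient by `τ`.
-/

set_option autoImplicit false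

noncomputable section

namespace Fermat.Agent.Lifting

open IsLocalRing MvPowerSeries RingTheory.Sequence
open Fermat.Agent.RT.Algebra Fermat.Agent.Patching

variable {O : Type} [CommRing O] {r d : ℕ}

/-- `O⟦Y⟧ᵈ` with the action of `O⟦x⟧` given by `L`. -/
def LimitModule (_L : MvPowerSeries (Fin r) O →+*
    Matrix (Fin d) (Fin d) (MvPowerSeries (Fin r) O)) : Type :=
  Fin d → MvPowerSeries (Fin r) O

instance (L : MvPowerSeries (Fin r) O →+* Matrix (Fin d) (Fin d) (MvPowerSeries (Fin r) O)) :
    AddCommGroup (LimitModule L) :=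
  inferInstanceAs (AddCommGroup (Fin d → MvPowerSeries (Fin r) O))

/-- The underlying vector. -/
def LimitModule.toVec
    (L : MvPowerSeries (Fin r) O →+* Matrix (Fin d) (Fin d) (MvPowerSeries (Fin r) O)) :
    LimitModule L ≃+ (Fin d → MvPowerSeries (Fin r) O) :=
  AddEquiv.refl _

instance (L : MvPowerSeries (Fin r) O →+* Matrix (Fin d) (Fin d) (MvPowerSeries (Fin r) O)) :
    Module (MvPowerSeries (Fin r) O) (LimitModule L) where
  smul f v := (LimitModule.toVec L).symm ((L f).mulVec (LimitModule.toVec L v))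
  one_smul v := show (L 1).mulVec _ = _ by rw [map_one, Matrix.one_mulVec]; rfl
  mul_smul f g v := show (L (f * g)).mulVec _ = (L f).mulVec ((L g).mulVec _) by
    rw [map_mul, Matrix.mulVec_mulVec]
  smul_zero f := show (L f).mulVec 0 = 0 from Matrix.mulVec_zero _
  smul_add f u v := show (L f).mulVec (_ + _) = _ from Matrix.mulVec_add _ _ _
  add_smul f g v := show (L (f + g)).mulVec _ = _ by rw [map_add, Matrix.add_mulVec]; rfl
  zero_smul v := show (L 0).mulVec _ = _ by rw [map_zero, Matrix.zero_mulVec]; rfl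

theorem LimitModule.toVec_smul
    (L : MvPowerSeries (Fin r) O →+* Matrix (Fin d) (Fin d) (MvPowerSeries (Fin r) O))
    (f : MvPowerSeries (Fin r) O) (v : LimitModule L) :
    LimitModule.toVec L (f • v) = (L f).mulVec (LimitModule.toVec L v) :=
  rfl

variable [IsDomain O] [IsDiscreteValuationRing O]
  [IsAdicComplete (maximalIdeal O) O] [Finite (ResidueField O)]

set_option maxHeartbeats 1000000 in
/-- **The minimal theorem.** -/
theorem exists_presentation_of_patching {p : ℕ} [Fact p.Prime] (hp : (p : O) ∈ maximalIdeal O)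
    (_hp2 : p ≠ 2) {r d : ℕ} (hd : 0 < d) {R : Type} [CommRing R] [IsLocalRing R]
    [IsNoetherianRing R] [IsAdicComplete (maximalIdeal R) R] [Algebra O R]
    {M₀ : Type} [AddCommGroup M₀] [Module O M₀] [Module R M₀] [IsScalarTower O R M₀]
    [Module.Finite O M₀] [Module.Free O M₀] (hd₀ : Module.finrank O M₀ = d)
    (D : ∀ n : ℕ, TWDatum O p r d n R M₀) :
    ∃ (γ : MvPowerSeries (Fin r) O →ₐ[O] R) (f : Fin r → MvPowerSeries (Fin r) O),
      Function.Surjective γ ∧ RingHom.ker γ = Ideal.span (Set.range f) ∧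
      (∀ ϖ : O, Irreducible ϖ → RingTheory.Sequence.IsWeaklyRegular
        (MvPowerSeries (Fin r) O) (List.ofFn f ++ [C ϖ])) ∧
      Module.Free R M₀ ∧ FaithfulSMul R M₀ ∧ Module.Finite O R := by
  classical
  let b₀ : Module.Basis (Fin d) O M₀ := Module.finBasisOfFinrankEq O M₀ hd₀
  obtain ⟨⟨L, g, τ, hLC, hgsurj, hgτ, hrel, hcompat⟩⟩ :=
    exists_limitData (Fact.out : p.Prime) hp b₀ D
  let S := MvPowerSeries (Fin r) O
  let N := LimitModule L
  let e : N ≃+ (Fin d → S) := LimitModule.toVec L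
  have he : ∀ (f : S) (x : N), e (f • x) = (L f).mulVec (e x) := LimitModule.toVec_smul L
  have hτm : ∀ i, τ i ∈ maximalIdeal S := fun i => (mem_maximalIdeal _).mpr fun h => by
    have := h.map g
    rw [hgτ] at this
    exact not_isUnit_zero this
  have hXm : ∀ i, (X i : S) ∈ maximalIdeal S := fun i =>
    (mem_maximalIdeal _).mpr fun h => by simpa using isUnit_iff_constantCoeff.mp h
  have hCm : ∀ {ϖ : O}, Irreducible ϖ → (C ϖ : S) ∈ maximalIdeal S := fun hϖ =>
    (mem_maximalIdeal _).mpr fun h => hϖ.not_isUnit (by simpa using isUnit_iff_constantCoeff.mp h)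
  have hscalar : ∀ (s : S) (v : Fin d → S), (Matrix.scalar (Fin d) s).mulVec v = s • v :=
    fun s v => by
      funext i
      rw [Matrix.scalar_apply, Matrix.mulVec_diagonal, Pi.smul_apply, smul_eq_mul]
  -- the units
  have hux : ∀ i, ∃ u : Sˣ, (u : S) = 1 + X i := fun i =>
    ⟨(isUnit_iff_constantCoeff.mpr (by simp)).unit, rfl⟩
  have hut : ∀ i, ∃ u : Sˣ, (u : S) = 1 + τ i := fun i => by
    obtain ⟨u, hu⟩ := IsLocalRing.isUnit_one_sub_self_of_mem_nonunits _
      ((mem_maximalIdeal _).mp (neg_mem (hτm i)))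
    exact ⟨u, by rw [hu, sub_neg_eq_add]⟩
  choose ux hux using hux
  choose ut hut using hut
  let zP : Fin r → S := fun i => τ i ^ 2 * ↑(ut i)⁻¹
  let zS : Fin r → S := fun i => (X i : S) ^ 2 * ↑(ux i)⁻¹
  have hzPm : ∀ i, zP i ∈ maximalIdeal S := fun i =>
    Ideal.mul_mem_right _ _ (Ideal.pow_mem_of_mem _ (hτm i) 2 (by norm_num))
  have hzSm : ∀ i, zS i ∈ maximalIdeal S := fun i =>
    Ideal.mul_mem_right _ _ (Ideal.pow_mem_of_mem _ (hXm i) 2 (by norm_num))
  have hz : ∀ i (x : N), e (zP i • x) = zS i • e x := fun i x => by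
    have h1 : Matrix.scalar (Fin d) (1 + X i) * L (zP i) = Matrix.scalar (Fin d) (X i ^ 2) := by
      show _ * L (τ i ^ 2 * ↑(ut i)⁻¹) = _
      rw [map_mul, ← mul_assoc, sq, hrel, mul_assoc, ← map_mul L, ← hut, Units.mul_inv, map_one,
        mul_one]
    have h2 : L (zP i) = Matrix.scalar (Fin d) (zS i) := by
      show L (zP i) = Matrix.scalar (Fin d) ((X i : S) ^ 2 * ↑(ux i)⁻¹)
      rw [mul_comm ((X i : S) ^ 2), map_mul (Matrix.scalar (Fin d)), ← h1, ← mul_assoc,
        ← map_mul (Matrix.scalar (Fin d)), ← hux, Units.inv_mul, map_one, one_mul]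
    rw [he, h2, hscalar]
  have hC : ∀ (c : O) (x : N), e ((C c : S) • x) = (C c : S) • e x := fun c x => by
    rw [he, hLC, hscalar]
  obtain ⟨ϖ₀, hϖ₀⟩ := IsDiscreteValuationRing.exists_irreducible O
  let fr := List.finRange r
  have hz1 : ∀ ϖ : O, ∀ a ∈ fr.map zP ++ [C ϖ],
      ∃ b ∈ fr.map zS ++ [C ϖ], ∀ x, e (a • x) = b • e x := by
    intro ϖ a ha
    simp only [List.mem_append, List.mem_map, List.mem_singleton] at ha ⊢
    rcases ha with ⟨i, hi, rfl⟩ | rfl
    · exact ⟨zS i, Or.inl ⟨i, hi, rfl⟩, hz i⟩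
    · exact ⟨C ϖ, Or.inr rfl, hC ϖ⟩
  have hz2 : ∀ ϖ : O, ∀ b ∈ fr.map zS ++ [C ϖ],
      ∃ a ∈ fr.map zP ++ [C ϖ], ∀ x, e (a • x) = b • e x := by
    intro ϖ b hb
    simp only [List.mem_append, List.mem_map, List.mem_singleton] at hb ⊢
    rcases hb with ⟨i, hi, rfl⟩ | rfl
    · exact ⟨zP i, Or.inl ⟨i, hi, rfl⟩, hz i⟩
    · exact ⟨C ϖ, Or.inr rfl, hC ϖ⟩
  have hmemS : ∀ {ϖ : O}, Irreducible ϖ → ∀ x ∈ [(C ϖ : S)], x ∈ maximalIdeal S :=
    fun hϖ x hx => by rw [List.mem_singleton.mp hx]; exact hCm hϖ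
  -- counting on `S`
  have hbase : ∀ {ϖ : O}, Irreducible ϖ →
      IsWeaklyRegular S ([] ++ (fr.map (X : Fin r → S) ++ [C ϖ])) := fun {ϖ} hϖ => by
    have h := isWeaklyRegular_paramSeq (A := O) r
      (IsRegular.of_ne_zero hϖ.ne_zero).left.isSMulRegular
    rwa [paramSeq, List.ofFn_eq_map] at h
  have hparam : Ideal.ofList (fr.map (X : Fin r → S) ++ [C ϖ₀]) = maximalIdeal S := by
    rw [← ofList_paramSeq r hϖ₀, paramSeq, List.ofFn_eq_map]
  set q := Nat.card (ResidueField S)
  have hresS : Finite (ResidueField S) := finite_residueField_mvPowerSeries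
  have hq : 0 < q := Nat.card_pos
  have hsquares : ∀ (f z : Fin r → S) (u : Fin r → Sˣ), (∀ i, z i = f i ^ 2 * ↑(u i)) →
      Ideal.ofList ([] ++ (fr.map (fun i => f i ^ 2) ++ [C ϖ₀])) =
        Ideal.ofList (fr.map z ++ [C ϖ₀]) := by
    intro f z u hzu
    rw [List.nil_append, Ideal.ofList_append, Ideal.ofList_append]
    congr 1
    refine le_antisymm (Ideal.span_le.mpr ?_) (Ideal.span_le.mpr ?_) <;> intro a ha <;>
      obtain ⟨i, hi, rfl⟩ := List.mem_map.mp ha
    · rw [SetLike.mem_coe, ← mul_one (f i ^ 2), ← Units.mul_inv (u i), ← mul_assoc, ← hzu]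
      exact Ideal.mul_mem_right _ _ (Ideal.subset_span (List.mem_map_of_mem hi))
    · rw [SetLike.mem_coe, hzu]
      exact Ideal.mul_mem_right _ _ (Ideal.subset_span (List.mem_map_of_mem (f := fun i => f i ^ 2) hi))
  have hcardS : Nat.card (S ⧸ Ideal.ofList (fr.map zS ++ [C ϖ₀])) = q ^ 2 ^ r := by
    have h := card_quotient_map_sq (N := S) (X : Fin r → S) hXm fr [C ϖ₀] [] (hmemS hϖ₀) (by simp)
      (hbase hϖ₀)
    simp only [smul_eq_mul, Ideal.mul_top, List.nil_append] at h
    have h2 := hsquares X zS (fun i => (ux i)⁻¹) fun i => rfl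
    rw [List.nil_append] at h2
    rw [h2, hparam, List.length_finRange] at h
    exact h
  -- the module over `O⟦x⟧`
  have hcardN : Nat.card (N ⧸ (Ideal.ofList (fr.map zP ++ [C ϖ₀]) • ⊤ : Submodule S N)) =
      (q ^ 2 ^ r) ^ d := by
    rw [card_quotient_ofList_congr e (hz1 ϖ₀) (hz2 ϖ₀), card_pi_quotient, hcardS]
  have hfinI : Finite (N ⧸ (Ideal.ofList (fr.map zP ++ [C ϖ₀]) • ⊤ : Submodule S N)) :=
    Nat.finite_of_card_ne_zero (by rw [hcardN]; positivity)
  have hle : Ideal.ofList (fr.map zP ++ [C ϖ₀]) ≤ maximalIdeal S := by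
    refine Ideal.span_le.mpr fun a ha => ?_
    simp only [Set.mem_ofPred_eq, List.mem_append, List.mem_map, List.mem_singleton] at ha
    rcases ha with ⟨i, -, rfl⟩ | rfl
    · exact hzPm i
    · exact hCm hϖ₀
  have : Finite (N ⧸ (maximalIdeal S • ⊤ : Submodule S N)) :=
    Finite.of_surjective _ (Submodule.factor_surjective (Submodule.smul_mono_left hle))
  have := isHausdorff_of_matrix L e he
  have := isPrecomplete_maximalIdeal_mvPowerSeries (O := O) (σ := Fin r)
  have : Module.Finite S N := finite_of_quotient (maximalIdeal S)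
  have : Nontrivial N := by
    have : Nonempty (Fin d) := ⟨⟨0, hd⟩⟩
    exact e.toEquiv.nontrivial
  have hregN : ∀ {ϖ : O}, Irreducible ϖ → IsWeaklyRegular N (fr.map zP ++ [C ϖ]) := fun {ϖ} hϖ => by
    have h1 : IsWeaklyRegular S (fr.map zS ++ [C ϖ]) :=
      isWeaklyRegular_map_replace (N := S) (X : Fin r → S) zS hXm hzSm
        (fun L' i h => (h.pow 2).mul (IsSMulRegular.of_mul (a := (↑(ux i) : S)) (by
          rw [Units.mul_inv]; exact .one _)))
        fr [C ϖ] [] (hmemS hϖ) (by simp) (hbase hϖ)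
    have h2 := h1.isWeaklyRegular_rTensor (M₂ := Fin d → S)
    rw [(TensorProduct.lid S _).isWeaklyRegular_congr] at h2
    refine (e.isWeaklyRegular_congr (bs := fr.map zS ++ [C ϖ]) ?_).mpr h2
    refine List.rel_append (List.forall₂_map_left_iff.mpr (List.forall₂_map_right_iff.mpr
      (List.forall₂_same.mpr fun i _ x => hz i x))) (List.Forall₂.cons (hC ϖ) List.Forall₂.nil)
  have : Module.Free S N := free_of_isWeaklyRegular (paramSeq r ϖ₀)
    (isWeaklyRegular_paramSeq r (IsRegular.of_ne_zero hϖ₀.ne_zero).left.isSMulRegular)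
    (ofList_paramSeq r hϖ₀) N (fr.map zP ++ [C ϖ₀]) (by simp [length_paramSeq, fr]) (hregN hϖ₀)
    (fun x hx => hle (Ideal.subset_span hx))
    (isFiniteLength_iff_isNoetherian_isArtinian.mpr ⟨inferInstance, isArtinian_of_finite⟩)
  let B := Module.Free.chooseBasis S N
  obtain ⟨k₀⟩ : Nonempty (Module.Free.ChooseBasisIndex S N) := B.index_nonempty
  -- regularity of `τ`
  have hregτN : ∀ {ϖ : O}, Irreducible ϖ → IsWeaklyRegular N ([] ++ (fr.map τ ++ [C ϖ])) :=
    fun {ϖ} hϖ => isWeaklyRegular_map_replace zP τ hzPm hτm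
      (fun L' i h => IsSMulRegular.of_mul (a := τ i * ↑(ut i)⁻¹) (by
        rwa [show τ i * ↑(ut i)⁻¹ * τ i = zP i by show _ = τ i ^ 2 * _; ring]))
      fr [C ϖ] [] (hmemS hϖ) (by simp) (hregN hϖ)
  have hreg : ∀ ϖ : O, Irreducible ϖ → IsWeaklyRegular S (List.ofFn τ ++ [C ϖ]) := fun ϖ hϖ => by
    have h := isWeaklyRegular_self_of_free B k₀ (hregτN hϖ)
    rwa [List.nil_append, ← List.ofFn_eq_map] at h
  -- counting the quotient by `τ`
  let I : Ideal S := Ideal.ofList (fr.map τ ++ [C ϖ₀])
  have hcard : Nat.card (N ⧸ (I • ⊤ : Submodule S N)) = q ^ d := by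
    have h := card_quotient_map_sq (N := N) τ hτm fr [C ϖ₀] [] (hmemS hϖ₀) (by simp) (hregτN hϖ₀)
    rw [hsquares τ zP (fun i => (ut i)⁻¹) (fun i => rfl), hcardN, List.length_finRange,
      ← pow_mul, mul_comm, pow_mul] at h
    exact (Nat.pow_left_injective (by positivity) h).symm
  -- the map to `M₀`
  let ν : N →+ M₀ :=
    AddMonoidHom.mk' (fun x => ∑ i, constantCoeff (e x i) • b₀ i) fun x y => by
      simp [add_smul, Finset.sum_add_distrib]
  have hνsmul : ∀ (f : S) (x : N), ν (f • x) = g f • ν x := by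
    intro f x
    show ∑ i, constantCoeff (e (f • x) i) • b₀ i = g f • ∑ l, constantCoeff (e x l) • b₀ l
    rw [Finset.smul_sum]
    simp only [smul_comm (g f)]
    conv_rhs =>
      arg 2
      ext l
      rw [← b₀.sum_repr (g f • b₀ l), Finset.smul_sum]
    rw [Finset.sum_comm]
    refine Finset.sum_congr rfl fun i _ => ?_
    simp only [he, Matrix.mulVec, dotProduct, map_sum, map_mul, hcompat, smul_smul, Finset.sum_smul]
    exact Finset.sum_congr rfl fun l _ => by rw [mul_comm]
  have hνsurj : Function.Surjective ν := fun y => ⟨e.symm fun i => C (b₀.repr y i), by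
    show ∑ i, constantCoeff (e (e.symm _) i) • b₀ i = y
    simp only [AddEquiv.apply_symm_apply, constantCoeff_C]
    exact b₀.sum_repr y⟩
  let K : Submodule S N :=
    { carrier := {x | ν x = 0}
      add_mem' := fun hx hy => by rw [Set.mem_ofPred_eq, map_add, hx, hy, add_zero]
      zero_mem' := map_zero ν
      smul_mem' := fun f x hx => by rw [Set.mem_ofPred_eq, hνsmul, hx, smul_zero] }
  let T : Submodule S N := Ideal.span (Set.range τ) • ⊤
  have hTK : T ≤ K := Submodule.smul_le.mpr fun a ha x _ => by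
    have ha' : g a = 0 := (Ideal.span_le (I := RingHom.ker g)).mpr
      (by rintro _ ⟨i, rfl⟩; exact hgτ i) ha
    show ν (a • x) = 0
    rw [hνsmul, ha', zero_smul]
  -- reduction modulo `ϖ`
  let ψ : N →+ (Fin d → ResidueField O) :=
    AddMonoidHom.mk' (fun x i => residue O (constantCoeff (e x i))) fun x y => by
      funext i; simp
  have hψν : ∀ x i, ψ x i = residue O (b₀.repr (ν x) i) := fun x i => by
    show residue O _ = _
    congr 1
    show _ = b₀.repr (∑ j, constantCoeff (e x j) • b₀ j) i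
    simp [Finsupp.single_apply]
  have hψI : ∀ x ∈ (I • ⊤ : Submodule S N), ψ x = 0 := by
    intro x hx
    induction hx using Submodule.smul_induction_on' with
    | smul a ha y _ =>
      funext i
      rw [hψν, hνsmul, Pi.zero_apply]
      have key : ∀ z : M₀, ∀ b ∈ I, residue O (b₀.repr (g b • z) i) = 0 := by
        intro z b hb
        revert z
        change b ∈ Submodule.span S {u | u ∈ fr.map τ ++ [C ϖ₀]} at hb
        induction hb using Submodule.span_induction with
        | mem u hu =>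
          intro z
          simp only [Set.mem_ofPred_eq, List.mem_append, List.mem_map, List.mem_singleton] at hu
          rcases hu with ⟨j, -, rfl⟩ | rfl
          · simp [hgτ]
          · rw [show (C ϖ₀ : S) = algebraMap O S ϖ₀ from rfl, AlgHom.commutes, algebraMap_smul,
              map_smul, Finsupp.smul_apply, smul_eq_mul, map_mul,
              (residue_eq_zero_iff ϖ₀).mpr ((mem_maximalIdeal _).mpr hϖ₀.not_isUnit), zero_mul]
        | zero => simp
        | add u u' _ _ h h' => intro z; simp [add_smul, h, h']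
        | smul c u _ h =>
          intro z
          rw [smul_eq_mul, mul_comm, map_mul, mul_smul]
          exact h _
      exact key _ a ha
    | add u _ v _ h h' => rw [map_add, h, h', add_zero]
  have hres : Nat.card (ResidueField O) = q := by
    have hloc : IsLocalHom (C (σ := Fin r) (R := O)) := ⟨fun a ha => by
      simpa using MvPowerSeries.isUnit_iff_constantCoeff.mp ha⟩
    refine Nat.card_eq_of_bijective (ResidueField.map (C (σ := Fin r) (R := O)))
      ⟨RingHom.injective _, fun z => ?_⟩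
    obtain ⟨f, rfl⟩ := residue_surjective z
    refine ⟨residue O (constantCoeff f), ?_⟩
    rw [ResidueField.map_residue, ← sub_eq_zero, ← map_sub, residue_eq_zero_iff, mem_maximalIdeal]
    exact fun h => by simpa using isUnit_iff_constantCoeff.mp h
  have hkerψ : ∀ x, ψ x = 0 → x ∈ (I • ⊤ : Submodule S N) := by
    let ψ' : N ⧸ (I • ⊤ : Submodule S N).toAddSubgroup →+ (Fin d → ResidueField O) :=
      QuotientAddGroup.lift _ ψ fun x hx => hψI x hx
    have hsurj : Function.Surjective ψ' := fun v => by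
      choose c hc using fun i => residue_surjective (v i)
      refine ⟨QuotientAddGroup.mk (e.symm fun i => C (c i)), funext fun i => ?_⟩
      show residue O (constantCoeff (e (e.symm _) i)) = v i
      rw [AddEquiv.apply_symm_apply, constantCoeff_C, hc]
    have : Finite (N ⧸ (I • ⊤ : Submodule S N)) :=
      Nat.finite_of_card_ne_zero (by rw [hcard]; positivity)
    have : Finite (N ⧸ (I • ⊤ : Submodule S N).toAddSubgroup) := this
    have hbij : Function.Bijective ψ' :=
      (Nat.bijective_iff_surjective_and_card _).mpr ⟨hsurj, by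
        rw [Nat.card_pi, Finset.prod_const, Finset.card_univ, Fintype.card_fin, hres]
        exact hcard⟩
    intro x hx
    exact (QuotientAddGroup.eq_zero_iff x).mp (hbij.1 ((map_zero ψ').symm ▸ hx))
  have hKT : K ≤ T := by
    refine Submodule.le_of_le_smul_of_le_jacobson_bot (I := Ideal.span {(C ϖ₀ : S)})
      (IsNoetherian.noetherian K) ?_ fun x hx => ?_
    · rw [IsLocalRing.jacobson_eq_maximalIdeal ⊥ bot_ne_top, Ideal.span_le, Set.singleton_subset_iff]
      exact hCm hϖ₀
    have hxI := hkerψ x (funext fun i => by rw [hψν, show ν x = 0 from hx]; simp)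
    have hI : I = Ideal.span (Set.range τ) ⊔ Ideal.span {(C ϖ₀ : S)} := by
      show Ideal.ofList _ = _
      rw [Ideal.ofList_append, Ideal.ofList_singleton, ← List.ofFn_eq_map, Ideal.ofList]
      simp [List.mem_ofFn, Set.range]
      rfl
    rw [hI, Submodule.sup_smul, Submodule.mem_sup] at hxI
    obtain ⟨a, ha, b, hb, rfl⟩ := hxI
    obtain ⟨w, rfl⟩ : ∃ w, (C ϖ₀ : S) • w = b := by
      rw [Submodule.ideal_span_singleton_smul, Submodule.mem_smul_pointwise_iff_exists] at hb
      obtain ⟨w, -, hw⟩ := hb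
      exact ⟨w, hw⟩
    refine Submodule.mem_sup.mpr ⟨a, ha, _, Submodule.smul_mem_smul
      (Ideal.mem_span_singleton_self _) ?_, rfl⟩
    have h1 : ν a + ν ((C ϖ₀ : S) • w) = 0 := by rw [← map_add]; exact hx
    rw [show ν a = 0 from hTK ha, zero_add, hνsmul, show (C ϖ₀ : S) = algebraMap O S ϖ₀ from rfl,
      AlgHom.commutes, algebraMap_smul] at h1
    show ν w = 0
    refine b₀.repr.injective (Finsupp.ext fun i => ?_)
    have h2 := DFunLike.congr_fun (congrArg b₀.repr h1) i
    rw [map_smul, Finsupp.smul_apply, map_zero, Finsupp.zero_apply, smul_eq_mul] at h2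
    simpa using (mul_eq_zero.mp h2).resolve_left hϖ₀.ne_zero
  have hcoord : ∀ x : N, ν x = 0 → ∀ k, B.repr x k ∈ Ideal.span (Set.range τ) := fun x hx k => by
    have h := Submodule.mem_map_of_mem (f := B.coord k) (hKT hx)
    rw [Submodule.map_smul''] at h
    have h' := Submodule.smul_mono le_rfl le_top h
    rw [smul_eq_mul, Ideal.mul_top] at h'
    exact h'
  have hker : RingHom.ker g = Ideal.span (Set.range τ) := by
    refine le_antisymm (fun f hf => ?_) (Ideal.span_le.mpr (by rintro _ ⟨i, rfl⟩; exact hgτ i))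
    have h0 : ν (f • B k₀) = 0 := by rw [hνsmul, show g f = 0 from hf, zero_smul]
    simpa using hcoord _ h0 k₀
  have hli : LinearIndependent R fun k => ν (B k) := by
    rw [linearIndependent_iff']
    intro s c hc k hk
    choose f hf using fun j => hgsurj (c j)
    have h0 : ν (∑ j ∈ s, f j • B j) = 0 := by simp only [map_sum, hνsmul, hf]; exact hc
    have hmem := hcoord _ h0 k
    rw [map_sum, Finsupp.finsetSum_apply] at hmem
    simp only [map_smul, Module.Basis.repr_self, Finsupp.smul_single, smul_eq_mul, mul_one] at hmem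
    rw [Finset.sum_eq_single k (fun j _ hj => Finsupp.single_eq_of_ne' hj)
      (fun h => absurd hk h), Finsupp.single_eq_same] at hmem
    rw [← hf k, ← RingHom.mem_ker, hker]
    exact hmem
  have hsp : ⊤ ≤ Submodule.span R (Set.range fun k => ν (B k)) := by
    rintro y -
    obtain ⟨x, rfl⟩ := hνsurj y
    rw [← B.linearCombination_repr x, Finsupp.linearCombination_apply, Finsupp.sum, map_sum]
    refine Submodule.sum_mem _ fun k _ => ?_
    rw [hνsmul]
    exact Submodule.smul_mem _ _ (Submodule.subset_span (Set.mem_range_self k))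
  let BM := Module.Basis.mk hli hsp
  have hfree : Module.Free R M₀ := Module.Free.of_basis BM
  have hfaith : FaithfulSMul R M₀ := ⟨fun {a b} h => by
    have h1 := DFunLike.congr_fun (congrArg BM.repr (h (BM k₀))) k₀
    simpa using h1⟩
  have hfin : Module.Finite O R := by
    refine Module.Finite.of_injective ((Algebra.lsmul O O M₀ : R →ₐ[O] Module.End O M₀).toLinearMap)
      fun a b h => eq_of_smul_eq_smul fun m : M₀ => ?_
    exact LinearMap.congr_fun h m
  exact ⟨g, τ, hgsurj, hker, hreg, hfree, hfaith, hfin⟩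

end Fermat.Agent.Lifting
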