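import Fermat.Agent.Lifting.Patch.Defs
import Fermat.Agent.RT.Algebra.Ultralimit

/-!
# The matrices of a Taylor–Wiles level over `O⟦Y⟧ / 𝔪 ^ (n + 1)`

In a basis lifting a given basis of `M₀` the power series ring `O⟦x⟧` acts by matrices over the
quotient of `O⟦Y⟧`, where `y i` is `1 + Y i`, and `ω` is the constant term.
-/

set_option autoImplicit false

noncomputable section

namespace Fermat.Agent.Lifting

open IsLocalRing MvPowerSeries
open scoped IsMulCommutative

variable {O : Type} [CommRing O] [IsLocalRing O] {R : Type} [CommRing R] [Algebra O R]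
  {M₀ : Type} [AddCommGroup M₀] [Module O M₀] [Module R M₀]

theorem constantCoeff_mem_pow {r m : ℕ} {f : MvPowerSeries (Fin r) O}
    (hf : f ∈ maximalIdeal (MvPowerSeries (Fin r) O) ^ m) :
    constantCoeff f ∈ maximalIdeal O ^ m := by
  have h := Ideal.mem_map_of_mem (constantCoeff (σ := Fin r) (R := O)) hf
  rw [Ideal.map_pow] at h
  refine Ideal.pow_right_mono ?_ m h
  rw [Ideal.map_le_iff_le_comap]
  intro x hx
  exact (mem_maximalIdeal _).mpr fun hu =>
    (mem_maximalIdeal _).mp hx (isUnit_iff_constantCoeff.mpr hu)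

/-- The data of level `n` used in the limit. -/
structure LevelMatrices (r d n : ℕ) (b₀ : Module.Basis (Fin d) O M₀) (R : Type) [CommRing R]
    [Algebra O R] [Module R M₀] where
  h : MvPowerSeries (Fin r) O →+* Matrix (Fin d) (Fin d)
    (MvPowerSeries (Fin r) O ⧸ maximalIdeal (MvPowerSeries (Fin r) O) ^ (n + 1))
  g : MvPowerSeries (Fin r) O →ₐ[O] R
  τ : Fin r → MvPowerSeries (Fin r) O
  h_C : ∀ c : O, h (C c) = (Ideal.Quotient.mk _).mapMatrix (Matrix.scalar (Fin d) (C c))
  g_surjective : Function.Surjective g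
  g_τ : ∀ i, g (τ i) = 0
  rel : ∀ i, (Ideal.Quotient.mk _).mapMatrix (Matrix.scalar (Fin d) (1 + X i)) * h (τ i * τ i) =
    (Ideal.Quotient.mk _).mapMatrix (Matrix.scalar (Fin d) (X i ^ 2)) * h (1 + τ i)
  compat : ∀ (f : MvPowerSeries (Fin r) O) (i l : Fin d) (s : MvPowerSeries (Fin r) O),
    Ideal.Quotient.mk _ s = h f i l →
      b₀.repr (g f • b₀ l) i - constantCoeff s ∈ maximalIdeal O ^ (n + 1)

theorem exists_levelMatrices {p r d n : ℕ} (hp : p.Prime)
    (hpO : (p : O) ∈ maximalIdeal O) (b₀ : Module.Basis (Fin d) O M₀)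
    [IsScalarTower O R M₀] (D : TWDatum O p r d n R M₀) :
    Nonempty (LevelMatrices r d n b₀ R) := by
  classical
  have : NeZero (p ^ n) := ⟨pow_ne_zero _ hp.ne_zero⟩
  let S := MvPowerSeries (Fin r) O
  let mS : Ideal S := maximalIdeal S ^ (n + 1)
  let q : S →+* S ⧸ mS := Ideal.Quotient.mk mS
  let Yq : Fin r → S ⧸ mS := fun j => q (1 + X j)
  have hXm : ∀ j, (X j : S) ∈ maximalIdeal S := fun j =>
    (mem_maximalIdeal _).mpr fun h => by simpa using isUnit_iff_constantCoeff.mp h
  have hpS : (p : S) ∈ maximalIdeal S := (mem_maximalIdeal _).mpr fun h =>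
    (mem_maximalIdeal _).mp hpO (by simpa using isUnit_iff_constantCoeff.mp h)
  -- `(1 + Y) ^ p ^ n = 1` at this level
  have hYper : ∀ j, Yq j ^ p ^ n = 1 := fun j => by
    have key : ∀ m, ((1 : S) + X j) ^ p ^ m - 1 ∈ maximalIdeal S ^ (m + 1) := by
      intro m
      induction m with
      | zero => simp only [zero_add, pow_zero, pow_one, add_sub_cancel_left]; exact hXm j
      | succ m ih =>
        have hfac : ((1 : S) + X j) ^ p ^ (m + 1) - 1 =
            (∑ k ∈ Finset.range p, ((1 + X j) ^ p ^ m) ^ k) * ((1 + X j) ^ p ^ m - 1) := by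
          rw [geom_sum_mul, ← pow_mul, pow_succ]
        rw [hfac, pow_succ' _ (m + 1)]
        refine Ideal.mul_mem_mul ?_ ih
        have hs : ∑ k ∈ Finset.range p, (((1 + X j) ^ p ^ m) ^ k - 1) ∈ maximalIdeal S :=
          Ideal.sum_mem _ fun k _ => by
            rw [← geom_sum_mul]
            exact Ideal.mul_mem_left _ _ (Ideal.pow_le_self (Nat.succ_ne_zero m) ih)
        simp only [Finset.sum_sub_distrib, Finset.sum_const, Finset.card_range, nsmul_one] at hs
        simpa using add_mem hs hpS
    rw [← sub_eq_zero, ← map_pow, ← map_one q, ← map_sub, Ideal.Quotient.eq_zero_iff_mem]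
    exact key n
  -- monomials in the operators
  have hcomm : ∀ a ∈ Set.range D.y, ∀ b ∈ Set.range D.y, a * b = b * a := by
    rintro _ ⟨i, rfl⟩ _ ⟨j, rfl⟩
    exact D.y_comm i j
  have := Algebra.isMulCommutative_adjoin O hcomm
  let Y' : Fin r → Algebra.adjoin O (Set.range D.y) :=
    fun j => ⟨D.y j, Algebra.subset_adjoin ⟨j, rfl⟩⟩
  let mon : (Fin r → ℕ) → Module.End O D.M := fun w => (List.ofFn fun j => D.y j ^ w j).prod
  have hmon : ∀ w, mon w = ((∏ j, Y' j ^ w j : Algebra.adjoin O (Set.range D.y)) :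
      Module.End O D.M) := fun w => by
    rw [← List.prod_ofFn]
    show _ = (Algebra.adjoin O (Set.range D.y)).val _
    rw [map_list_prod, List.map_ofFn]
    rfl
  have hyper : ∀ j, Y' j ^ p ^ n = 1 := fun j => Subtype.ext (by simpa [Y'] using D.y_pow j)
  let red : (Fin r → ℕ) → (Fin r → Fin (p ^ n)) :=
    fun w j => ⟨w j % p ^ n, Nat.mod_lt _ (Nat.pos_of_ne_zero (NeZero.ne _))⟩
  have hred : ∀ w, mon w = mon fun j => (red w j : ℕ) := fun w => by
    rw [hmon, hmon]
    congr 1
    exact Finset.prod_congr rfl fun j _ => pow_eq_pow_mod _ (hyper j)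
  have hmon_add : ∀ i (w : Fin r → ℕ), D.y i * mon w = mon (Pi.single i 1 + w) := fun i w => by
    rw [hmon, hmon]
    simp only [Pi.add_apply, pow_add, Finset.prod_mul_distrib]
    rw [Finset.prod_eq_single (s := Finset.univ) (f := fun j => Y' j ^ (Pi.single i 1 : Fin r → ℕ) j) i]
    · rw [Pi.single_eq_same, pow_one]
      rfl
    · intro j _ hj
      rw [Pi.single_eq_of_ne hj, pow_zero]
    · simp
  have hlin : ∀ (w : Fin r → ℕ) (a : D.A) (m : D.M), mon w (a • m) = a • mon w m := by
    intro w a m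
    have h : Commute (DistribSMul.toLinearMap O D.M a) (mon w) := by
      refine Commute.list_prod_right _ _ fun f hf => ?_
      obtain ⟨j, rfl⟩ := List.mem_ofFn.mp hf
      exact Commute.pow_right (LinearMap.ext fun x => (D.y_linear j a x).symm) _
    exact (LinearMap.congr_fun h.eq m).symm
  have hωy : ∀ (w : Fin r → ℕ) (m : D.M), D.ω (mon w m) = D.ω m := by
    intro w m
    have h1 : ∀ (j : Fin r) (k : ℕ) (x : D.M), D.ω ((D.y j ^ k) x) = D.ω x := by
      intro j k
      induction k with
      | zero => simp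
      | succ k ih =>
        intro x
        rw [pow_succ, Module.End.mul_apply, ih]
        have hmem : (D.y j - 1) x ∈ LinearMap.ker D.ω := by
          rw [D.ker_ω]
          exact Submodule.mem_iSup_of_mem j ⟨x, rfl⟩
        rwa [LinearMap.mem_ker, LinearMap.sub_apply, Module.End.one_apply, map_sub,
          sub_eq_zero] at hmem
    suffices hl : ∀ (l : List (Module.End O D.M)), (∀ f ∈ l, ∀ x, D.ω (f x) = D.ω x) →
        ∀ x, D.ω (l.prod x) = D.ω x from hl _ (fun f hf x => by
      obtain ⟨j, rfl⟩ := List.mem_ofFn.mp hf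
      exact h1 j _ x) m
    intro l
    induction l with
    | nil => simp
    | cons f t ih =>
      intro hl x
      rw [List.prod_cons, Module.End.mul_apply, hl f List.mem_cons_self,
        ih (fun g hg => hl g (List.mem_cons_of_mem _ hg))]
  -- coordinates
  let J := Fin d × (Fin r → Fin (p ^ n))
  let vec : J → D.M := fun iv => mon (fun j => (iv.2 j : ℕ)) (D.basis iv.1)
  let E : (J →₀ O) ≃ₗ[O] D.M :=
    LinearEquiv.ofBijective (Finsupp.linearCombination O vec) D.basis_bijective
  have hE : ∀ iv, E (Finsupp.single iv 1) = vec iv := fun iv => by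
    show Finsupp.linearCombination O vec (Finsupp.single iv 1) = _
    simp
  have hsymm : ∀ iv, E.symm (vec iv) = Finsupp.single iv 1 := fun iv => by
    rw [← hE, E.symm_apply_apply]
  have hspan : ∀ m : D.M, m ∈ Submodule.span O (Set.range vec) := fun m => by
    rw [← Finsupp.range_linearCombination]
    exact ⟨E.symm m, E.apply_symm_apply m⟩
  -- the basis of the coinvariants
  have hωspan : ⊤ ≤ Submodule.span O (Set.range fun j => D.ω (D.basis j)) := by
    intro x _
    obtain ⟨m, rfl⟩ := D.ω_surjective x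
    have h1 := Submodule.mem_map_of_mem (f := D.ω) (hspan m)
    rw [Submodule.map_span, ← Set.range_comp] at h1
    refine Submodule.span_mono ?_ h1
    rintro _ ⟨iv, rfl⟩
    exact ⟨iv.1, (hωy _ _).symm⟩
  let e := basisOfTopLeSpanOfCardEqFinrank (R := O) (fun j => D.ω (D.basis j)) hωspan
    (Module.finrank_eq_card_basis b₀).symm
  have he : ∀ j, e j = D.ω (D.basis j) := fun j => by
    rw [coe_basisOfTopLeSpanOfCardEqFinrank]
  let b' : Fin d → D.M := fun l => ∑ j, e.repr (b₀ l) j • D.basis j
  have hb'ω : ∀ l, D.ω (b' l) = b₀ l := fun l => by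
    simp only [b', map_sum, map_smul, ← he]
    exact e.sum_repr _
  have hbasis : ∀ j, D.basis j = ∑ l, b₀.repr (D.ω (D.basis j)) l • b' l := by
    intro j
    simp only [b', Finset.smul_sum, smul_smul]
    rw [Finset.sum_comm]
    simp only [← Finset.sum_smul]
    have hk : ∀ k, ∑ l, b₀.repr (D.ω (D.basis j)) l * e.repr (b₀ l) k =
        if k = j then 1 else 0 := by
      intro k
      have h1 : e.repr (∑ l, b₀.repr (D.ω (D.basis j)) l • b₀ l) k = e.repr (e j) k := by
        rw [b₀.sum_repr, ← he]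
      rw [map_sum, Finsupp.finsetSum_apply, Module.Basis.repr_self, Finsupp.single_apply] at h1
      simp only [map_smul, Finsupp.smul_apply, smul_eq_mul] at h1
      simp only [h1, eq_comm]
    simp [hk]
  let V : Fin d → Fin d → S ⧸ mS := fun j i => q (C (b₀.repr (D.ω (D.basis j)) i))
  let Λ : D.M →ₗ[O] (Fin d → S ⧸ mS) :=
    (Finsupp.linearCombination O fun iv : J => (∏ j, Yq j ^ (iv.2 j : ℕ)) • V iv.1) ∘ₗ
      E.symm.toLinearMap
  have hΛvec : ∀ (w : Fin r → ℕ) l, Λ (mon w (D.basis l)) = (∏ j, Yq j ^ w j) • V l := by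
    intro w l
    have h1 : mon w (D.basis l) = vec (l, red w) := LinearMap.congr_fun (hred w) _
    rw [h1]
    show Finsupp.linearCombination O _ (E.symm (vec (l, red w))) = _
    rw [hsymm, Finsupp.linearCombination_single, one_smul]
    congr 1
    exact Finset.prod_congr rfl fun j _ => (pow_eq_pow_mod _ (hYper j)).symm
  have hΛy : ∀ (i : Fin r) (m : D.M), Λ (D.y i m) = Yq i • Λ m := by
    intro i m
    induction hspan m using Submodule.span_induction with
    | mem x hx =>
      obtain ⟨⟨l, v⟩, rfl⟩ := hx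
      show Λ (D.y i (mon _ (D.basis l))) = Yq i • Λ (mon _ (D.basis l))
      rw [← Module.End.mul_apply, hmon_add, hΛvec, hΛvec, smul_smul]
      congr 1
      simp only [Pi.add_apply, pow_add, Finset.prod_mul_distrib]
      rw [Finset.prod_eq_single (s := Finset.univ)
        (f := fun j => Yq j ^ (Pi.single i 1 : Fin r → ℕ) j) i]
      · rw [Pi.single_eq_same, pow_one]
      · intro j _ hj
        rw [Pi.single_eq_of_ne hj, pow_zero]
      · simp
    | zero => simp
    | add x y _ _ h1 h2 => simp [h1, h2]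
    | smul c x _ h1 => rw [map_smul, map_smul, map_smul, h1, smul_comm]
  have hΛmon : ∀ (w : Fin r → ℕ) (m : D.M), Λ (mon w m) = (∏ j, Yq j ^ w j) • Λ m := by
    intro w m
    induction hspan m using Submodule.span_induction with
    | mem x hx =>
      obtain ⟨⟨l, v⟩, rfl⟩ := hx
      show Λ (mon w (mon _ (D.basis l))) = _ • Λ (mon _ (D.basis l))
      rw [show mon w (mon (fun j => (v j : ℕ)) (D.basis l)) =
        mon (w + fun j => (v j : ℕ)) (D.basis l) by
          rw [← Module.End.mul_apply, hmon, hmon, hmon, ← Subalgebra.coe_mul,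
            ← Finset.prod_mul_distrib]
          simp only [Pi.add_apply, pow_add], hΛvec, hΛvec, smul_smul, ← Finset.prod_mul_distrib]
      simp only [Pi.add_apply, pow_add]
    | zero => simp
    | add x y _ _ h1 h2 => simp [h1, h2]
    | smul c x _ h1 => rw [map_smul, map_smul, map_smul, h1, smul_comm]
  have hscal : ∀ (c : O) (v : Fin d → S ⧸ mS), c • v = q (C c) • v := fun c v => by
    funext i
    exact (algebraMap_smul (S ⧸ mS) c (v i)).symm
  have hΛb' : ∀ l, Λ (b' l) = Pi.single l 1 := by
    intro l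
    have hv : ∀ j, Λ (D.basis j) = V j := fun j => by
      have := hΛvec 0 j
      simpa [mon] using this
    funext i
    simp only [b', map_sum, map_smul, hv, Finset.sum_apply, hscal, Pi.smul_apply, smul_eq_mul, V,
      ← map_mul]
    rw [← map_sum, ← map_sum]
    have h1 : b₀.repr (∑ j, e.repr (b₀ l) j • D.ω (D.basis j)) i = b₀.repr (b₀ l) i := by
      simp only [← he]
      rw [e.sum_repr]
    simp only [map_sum, map_smul, Finsupp.finsetSum_apply, Finsupp.smul_apply, smul_eq_mul] at h1
    rw [h1, Module.Basis.repr_self, Finsupp.single_apply]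
    rcases eq_or_ne l i with rfl | hli
    · simp
    · simp [hli]
  -- the matrices
  let Rm : D.A → Matrix (Fin d) (Fin d) (S ⧸ mS) := fun a => Matrix.of fun i l => Λ (a • b' l) i
  have hRv : ∀ (a : D.A) (m : D.M), Λ (a • m) = (Rm a).mulVec (Λ m) := by
    intro a m
    induction hspan m using Submodule.span_induction with
    | mem x hx =>
      obtain ⟨⟨j, v⟩, rfl⟩ := hx
      show Λ (a • mon _ (D.basis j)) = (Rm a).mulVec (Λ (mon _ (D.basis j)))
      rw [← hlin, hΛmon, hΛmon, Matrix.mulVec_smul]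
      congr 1
      rw [hbasis j]
      simp only [Finset.smul_sum, map_sum, Matrix.mulVec_sum]
      refine Finset.sum_congr rfl fun l _ => ?_
      have hsm : ∀ (c : O) (m : D.M), Λ (c • m) = c • Λ m := fun c m => map_smul Λ c m
      rw [smul_comm a, hsm, hsm _ (b' l), hΛb', hscal, hscal, Matrix.mulVec_smul,
        Matrix.mulVec_single_one]
      rfl
    | zero => simp
    | add x y _ _ h1 h2 => rw [smul_add, map_add, map_add, h1, h2, Matrix.mulVec_add]
    | smul c x _ h1 =>
      have hsm : ∀ (m : D.M), Λ (c • m) = c • Λ m := fun m => map_smul Λ c m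
      rw [smul_comm a, hsm, hsm, h1, hscal, hscal, Matrix.mulVec_smul]
  have hext : ∀ (A₁ A₂ : Matrix (Fin d) (Fin d) (S ⧸ mS)),
      (∀ l, A₁.mulVec (Λ (b' l)) = A₂.mulVec (Λ (b' l))) → A₁ = A₂ := fun A₁ A₂ h => by
    ext i l
    have := congrFun (h l) i
    rwa [hΛb', Matrix.mulVec_single_one, Matrix.mulVec_single_one] at this
  let hA : D.A →+* Matrix (Fin d) (Fin d) (S ⧸ mS) :=
    { toFun := Rm
      map_one' := hext _ _ fun l => by rw [← hRv, one_smul, Matrix.one_mulVec]
      map_mul' := fun a b => hext _ _ fun l => by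
        rw [← hRv, ← Matrix.mulVec_mulVec, ← hRv, ← hRv, mul_smul]
      map_zero' := hext _ _ fun l => by rw [← hRv, zero_smul, map_zero, Matrix.zero_mulVec]
      map_add' := fun a b => hext _ _ fun l => by
        rw [← hRv, Matrix.add_mulVec, ← hRv, ← hRv, add_smul, map_add] }
  choose τ hτ using fun i => D.γ_surjective (D.t i)
  have hscalar : ∀ s : S, q.mapMatrix (Matrix.scalar (Fin d) s) = Matrix.scalar (Fin d) (q s) :=
    fun s => by
      rw [Matrix.scalar_apply, Matrix.scalar_apply, RingHom.mapMatrix_apply,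
        Matrix.diagonal_map (map_zero q)]
  have hmulscalar : ∀ (s : S ⧸ mS) (v : Fin d → S ⧸ mS),
      (Matrix.scalar (Fin d) s).mulVec v = s • v := fun s v => by
    funext i
    rw [Matrix.scalar_apply, Matrix.mulVec_diagonal, Pi.smul_apply, smul_eq_mul]
  refine ⟨{
    h := hA.comp D.γ.toRingHom
    g := D.π.comp D.γ
    τ := τ
    h_C := fun c => ?_
    g_surjective := D.π_surjective.comp D.γ_surjective
    g_τ := fun i => ?_
    rel := fun i => ?_
    compat := fun f i l s hs => ?_ }⟩
  · refine (hext _ _ fun l => ?_)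
    show (hA (D.γ (algebraMap O S c))).mulVec _ = _
    rw [AlgHom.commutes]
    show (Rm _).mulVec _ = _
    rw [← hRv, algebraMap_smul, map_smul, hscalar, hmulscalar, hscal]
  · rw [AlgHom.comp_apply, hτ, ← RingHom.mem_ker, D.ker_π]
    exact Ideal.subset_span ⟨i, rfl⟩
  · refine hext _ _ fun l => ?_
    show ((q.mapMatrix (Matrix.scalar (Fin d) _) * hA (D.γ (τ i * τ i))).mulVec _) =
      (q.mapMatrix (Matrix.scalar (Fin d) _) * hA (D.γ (1 + τ i))).mulVec _
    rw [map_mul D.γ, map_add D.γ, map_one D.γ, hτ, hscalar, hscalar, ← Matrix.mulVec_mulVec,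
      ← Matrix.mulVec_mulVec, hmulscalar, hmulscalar]
    show q (1 + X i) • (Rm (D.t i * D.t i)).mulVec _ = q (X i ^ 2) • (Rm (1 + D.t i)).mulVec _
    rw [← hRv, ← hRv, ← hΛy, D.t_rel, D.y_linear, hRv, hRv]
    have hy : D.y i ((D.y i ^ (p ^ n - 1)) (b' l)) = b' l := by
      rw [← Module.End.mul_apply, ← pow_succ', Nat.sub_add_cancel
        (Nat.one_le_iff_ne_zero.mpr (NeZero.ne _)), D.y_pow, Module.End.one_apply]
    rw [map_sub, map_add, hy, map_smul, map_sub, map_add, map_smul, hΛy, hΛy, hscal,
      ← Matrix.mulVec_smul]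
    congr 1
    funext k
    simp only [Pi.sub_apply, Pi.add_apply, Pi.smul_apply, smul_eq_mul, map_ofNat, map_pow, map_add,
      map_one, Yq]
    ring
  · have key : ∀ m : D.M, ∀ i, ∀ s : S, q s = Λ m i →
        b₀.repr (D.ω m) i - constantCoeff s ∈ maximalIdeal O ^ (n + 1) := by
      let c0 : S ⧸ mS →+* O ⧸ maximalIdeal O ^ (n + 1) :=
        Ideal.Quotient.lift mS ((Ideal.Quotient.mk _).comp constantCoeff) fun x hx => by
          rw [RingHom.comp_apply, Ideal.Quotient.eq_zero_iff_mem]
          exact constantCoeff_mem_pow hx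
      have hc0 : ∀ x, c0 (q x) = Ideal.Quotient.mk _ (constantCoeff x) := fun x => rfl
      intro m i s hs
      rw [← Ideal.Quotient.eq, ← hc0, hs]
      clear hs
      revert i
      induction hspan m using Submodule.span_induction with
      | mem x hx =>
        obtain ⟨⟨j, v⟩, rfl⟩ := hx
        intro i
        show _ = c0 (Λ (mon _ (D.basis j)) i)
        rw [hΛvec, hωy, Pi.smul_apply, smul_eq_mul, map_mul, map_prod,
          Finset.prod_eq_one (fun k _ => by simp [Yq, hc0]), one_mul]
        simp [V, hc0]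
      | zero => simp
      | add x y _ _ h1 h2 =>
        intro i
        simp only [map_add, Finsupp.add_apply, Pi.add_apply, h1, h2]
      | smul c x _ h1 =>
        intro i
        rw [map_smul, map_smul, map_smul, hscal, Pi.smul_apply, Finsupp.smul_apply, smul_eq_mul,
          smul_eq_mul, map_mul, map_mul, h1, hc0, constantCoeff_C]
    have h2 := key (D.γ f • b' l) i s (by
      rw [hs]
      show Rm (D.γ f) i l = _
      rfl)
    rw [D.ω_linear, hb'ω] at h2
    exact h2

end Fermat.Agent.Lifting
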