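import Fermat.Agent.Lifting.Patch.Level
import Fermat.Agent.RT.Algebra.Limit

/-!
# The limit of the Taylor–Wiles levels

Along an ultrafilter the matrices of the levels converge to an action of `O⟦x⟧` on `O⟦Y⟧ᵈ` in
which `(1 + Y i) τ i ^ 2 = Y i ^ 2 (1 + τ i)`, together with a surjection onto `R` compatible with
the constant terms.
-/

set_option autoImplicit false

noncomputable section

namespace Fermat.Agent.Lifting

open IsLocalRing MvPowerSeries
open Fermat.Agent.RT.Algebra

variable {O : Type} [CommRing O] [IsDomain O] [IsDiscreteValuationRing O]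
  [IsAdicComplete (maximalIdeal O) O] [Finite (ResidueField O)] {R : Type} [CommRing R]
  [Algebra O R] {M₀ : Type} [AddCommGroup M₀] [Module O M₀] [Module R M₀]

/-- The limit of the levels. -/
structure LimitData (r d : ℕ) (b₀ : Module.Basis (Fin d) O M₀) (R : Type) [CommRing R]
    [Algebra O R] [Module R M₀] where
  L : MvPowerSeries (Fin r) O →+* Matrix (Fin d) (Fin d) (MvPowerSeries (Fin r) O)
  g : MvPowerSeries (Fin r) O →ₐ[O] R
  τ : Fin r → MvPowerSeries (Fin r) O
  L_C : ∀ c : O, L (C c) = Matrix.scalar (Fin d) (C c)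
  g_surjective : Function.Surjective g
  g_τ : ∀ i, g (τ i) = 0
  rel : ∀ i, Matrix.scalar (Fin d) (1 + X i) * L (τ i * τ i) =
    Matrix.scalar (Fin d) (X i ^ 2) * L (1 + τ i)
  compat : ∀ (f : MvPowerSeries (Fin r) O) (i l : Fin d),
    b₀.repr (g f • b₀ l) i = constantCoeff (L f i l)

/-- A surjection of local rings maps powers of the maximal ideal into powers of the maximal
ideal. -/
theorem mem_pow_maximalIdeal_of_surjective {A B : Type*} [CommRing A] [IsLocalRing A] [CommRing B]
    [IsLocalRing B] {F : Type*} [FunLike F A B] [RingHomClass F A B] (f : F)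
    (hf : Function.Surjective f) {x : A} {j : ℕ} (hx : x ∈ maximalIdeal A ^ j) :
    f x ∈ maximalIdeal B ^ j := by
  have h := Ideal.mem_map_of_mem f hx
  rw [Ideal.map_pow] at h
  refine Ideal.pow_right_mono ?_ j h
  rw [Ideal.map_le_iff_le_comap]
  exact (IsLocalRing.eq_maximalIdeal (Ideal.comap_isMaximal_of_surjective f hf)).ge

variable [IsLocalRing R] [IsNoetherianRing R] [IsScalarTower O R M₀]

set_option maxHeartbeats 800000 in
theorem exists_limitData {p r d : ℕ} (hp : p.Prime) (hpO : (p : O) ∈ maximalIdeal O)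
    (b₀ : Module.Basis (Fin d) O M₀) (D : ∀ n : ℕ, TWDatum O p r d n R M₀) :
    Nonempty (LimitData r d b₀ R) := by
  classical
  let S := MvPowerSeries (Fin r) O
  let lev := fun n => (exists_levelMatrices hp hpO b₀ (D n)).some
  let U : Ultrafilter ℕ := Filter.hyperfilter ℕ
  have hU : ∀ j, ∀ᶠ n in (U : Filter ℕ), j ≤ n + 1 := fun j =>
    Filter.hyperfilter_le_cofinite (by
      rw [Nat.cofinite_eq_atTop]
      filter_upwards [Filter.eventually_ge_atTop j] with n hn
      omega)
  let q : ∀ j, S →+* S ⧸ maximalIdeal S ^ j := fun j => Ideal.Quotient.mk _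
  let Q : ∀ j, Matrix (Fin d) (Fin d) S →+* Matrix (Fin d) (Fin d) (S ⧸ maximalIdeal S ^ j) :=
    fun j => (q j).mapMatrix
  let hh : ∀ {n j : ℕ}, j ≤ n + 1 → S →+* Matrix (Fin d) (Fin d) (S ⧸ maximalIdeal S ^ j) :=
    fun {n j} hjn => (Ideal.Quotient.factor (Ideal.pow_le_pow_right hjn)).mapMatrix.comp (lev n).h
  have hfQ : ∀ {n j : ℕ} (hjn : j ≤ n + 1) (A : Matrix (Fin d) (Fin d) S),
      (Ideal.Quotient.factor (Ideal.pow_le_pow_right hjn)).mapMatrix (Q (n + 1) A) = Q j A :=
    fun hjn A => rfl
  choose Rn hRn using fun (n : ℕ) (f : S) (i l : Fin d) =>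
    Ideal.Quotient.mk_surjective ((lev n).h f i l)
  have hQR : ∀ n f, Q (n + 1) (Matrix.of (Rn n f)) = (lev n).h f := fun n f =>
    Matrix.ext fun i l => hRn n f i l
  -- the limit action
  choose L₀ hL using fun (f : S) (i l : Fin d) => exists_ultralimit U fun n => Rn n f i l
  let L : S → Matrix (Fin d) (Fin d) S := fun f => Matrix.of (L₀ f)
  have hlim : ∀ (f : S) (j : ℕ),
      ∀ᶠ n in (U : Filter ℕ), ∃ hjn : j ≤ n + 1, hh hjn f = Q j (L f) := by
    intro f j
    have : ∀ᶠ n in (U : Filter ℕ), ∀ i l, Rn n f i l - L f i l ∈ maximalIdeal S ^ j := by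
      simp only [Filter.eventually_all]
      exact fun i l => hL f i l j
    filter_upwards [this, hU j] with n hn hjn
    refine ⟨hjn, ?_⟩
    show (Ideal.Quotient.factor _).mapMatrix ((lev n).h f) = _
    rw [← hQR, hfQ hjn]
    exact Matrix.ext fun i l => Ideal.Quotient.eq.mpr (hn i l)
  have hsep : ∀ A B : Matrix (Fin d) (Fin d) S,
      (∀ j, ∀ᶠ _n in (U : Filter ℕ), Q j A = Q j B) → A = B := fun A B hAB =>
    Matrix.ext fun i l => eq_of_eventually_sub_mem U fun j => (hAB j).mono fun n hn =>
      Ideal.Quotient.eq.mp (congrFun (congrFun hn i) l)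
  have hLC : ∀ c : O, L (C c) = Matrix.scalar (Fin d) (C c : S) := fun c =>
    hsep _ _ fun j => by
      filter_upwards [hlim (C c) j] with n ⟨hjn, hn⟩
      rw [← hn]
      show (Ideal.Quotient.factor _).mapMatrix ((lev n).h (C c)) = _
      rw [(lev n).h_C]
      exact hfQ hjn _
  let LH : S →+* Matrix (Fin d) (Fin d) S :=
    { toFun := L
      map_one' := by rw [← map_one (C (σ := Fin r) (R := O)), hLC, map_one, map_one]
      map_mul' := fun x y => hsep _ _ fun j => by
        filter_upwards [hlim (x * y) j, hlim x j, hlim y j] with n ⟨hjn, h1⟩ ⟨_, h2⟩ ⟨_, h3⟩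
        rw [← h1, map_mul, map_mul, ← h2, ← h3]
      map_zero' := by rw [← map_zero (C (σ := Fin r) (R := O)), hLC, map_zero, map_zero]
      map_add' := fun x y => hsep _ _ fun j => by
        filter_upwards [hlim (x + y) j, hlim x j, hlim y j] with n ⟨hjn, h1⟩ ⟨_, h2⟩ ⟨_, h3⟩
        rw [← h1, map_add, map_add, ← h2, ← h3] }
  have hresS : Finite (ResidueField S) := finite_residueField_mvPowerSeries
  have hfinS : ∀ j, Finite (S ⧸ maximalIdeal S ^ j) := fun j => finite_quotient_pow j
  -- the limit surjection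
  let gg := fun n => (lev n).g
  have hcont : ∀ (n j : ℕ) (f : S), f ∈ maximalIdeal S ^ j → gg n f ∈ maximalIdeal R ^ j :=
    fun n j f hf => mem_pow_maximalIdeal_of_surjective _ (lev n).g_surjective hf
  have hsepR : ∀ a b : R, (∀ j, a - b ∈ maximalIdeal R ^ j) → a = b := fun a b hab => by
    refine sub_eq_zero.mp (IsHausdorff.haus (I := maximalIdeal R) inferInstance _ fun j => ?_)
    rw [SModEq.zero, smul_eq_mul, Ideal.mul_top]
    exact hab j
  choose w hw using fun (n : ℕ) (f : S) => (lev 0).g_surjective (gg n f)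
  choose W hW using fun f : S => exists_ultralimit U fun n => w n f
  let G : S → R := fun f => gg 0 (W f)
  have hglim : ∀ (f : S) (j : ℕ),
      ∀ᶠ n in (U : Filter ℕ), gg n f - G f ∈ maximalIdeal R ^ j := by
    intro f j
    filter_upwards [hW f j] with n hn
    have := hcont 0 j _ hn
    rwa [map_sub, show gg 0 (w n f) = gg n f from hw n f] at this
  have hsepG : ∀ (a : R) (f : S),
      (∀ j, ∀ᶠ n in (U : Filter ℕ), gg n f - a ∈ maximalIdeal R ^ j) → G f = a := by
    intro a f h
    refine hsepR _ _ fun j => ?_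
    obtain ⟨n, h1, h2⟩ := ((h j).and (hglim f j)).exists
    simpa using sub_mem h1 h2
  let GH : S →ₐ[O] R :=
    { toFun := G
      map_one' := hsepG _ _ fun j => Filter.Eventually.of_forall fun n => by simp
      map_zero' := hsepG _ _ fun j => Filter.Eventually.of_forall fun n => by simp
      map_mul' := fun x y => hsepG _ _ fun j => by
        filter_upwards [hglim x j, hglim y j] with n h1 h2
        have he : gg n (x * y) - G x * G y = gg n x * (gg n y - G y) + (gg n x - G x) * G y := by
          rw [map_mul]; ring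
        rw [he]
        exact add_mem (Ideal.mul_mem_left _ _ h2) (Ideal.mul_mem_right _ _ h1)
      map_add' := fun x y => hsepG _ _ fun j => by
        filter_upwards [hglim x j, hglim y j] with n h1 h2
        rw [map_add, add_sub_add_comm]
        exact add_mem h1 h2
      commutes' := fun c => hsepG _ _ fun j => Filter.Eventually.of_forall fun n => by rw [AlgHom.commutes, sub_self]; exact zero_mem _ }
  choose τ hτ using fun i => exists_ultralimit U fun n => (lev n).τ i
  refine ⟨{
    L := LH
    g := GH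
    τ := τ
    L_C := hLC
    g_surjective := fun z => ?_
    g_τ := fun i => ?_
    rel := fun i => ?_
    compat := fun f i l => ?_ }⟩
  · choose c hc using fun n => (lev n).g_surjective z
    obtain ⟨c', hc'⟩ := exists_ultralimit U c
    refine ⟨c', hsepG z c' fun j => ?_⟩
    filter_upwards [hc' j] with n hn
    have h1 := hcont n j _ hn
    rw [map_sub, show gg n (c n) = z from hc n] at h1
    simpa using neg_mem h1
  · refine hsepG _ _ fun j => ?_
    filter_upwards [hτ i j] with n hn
    have h1 := hcont n j _ hn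
    rw [map_sub, show gg n ((lev n).τ i) = 0 from (lev n).g_τ i] at h1
    simpa using neg_mem h1
  · refine hsep _ _ fun j => ?_
    have := hfinS j
    filter_upwards [hlim (τ i * τ i) j, hlim (1 + τ i) j,
      hτ i (Nat.card (Matrix (Fin d) (Fin d) (S ⧸ maximalIdeal S ^ j)))] with n ⟨hjn, h1⟩ ⟨_, h2⟩ hn
    have heq : hh hjn ((lev n).τ i) = hh hjn (τ i) := by
      rw [← sub_eq_zero, ← map_sub]
      exact map_eq_zero_of_mem_pow_card (hh hjn) hn
    show Q j (_ * L (τ i * τ i)) = Q j (_ * L (1 + τ i))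
    rw [map_mul (Q j), map_mul (Q j), ← h1, ← h2, map_mul (hh hjn) (τ i), ← heq,
      ← map_mul (hh hjn), map_add (hh hjn) 1 (τ i), ← heq, ← map_add (hh hjn), ← hfQ hjn,
      ← hfQ hjn]
    show _ * (Ideal.Quotient.factor _).mapMatrix ((lev n).h _) =
      _ * (Ideal.Quotient.factor _).mapMatrix ((lev n).h _)
    rw [← map_mul, ← map_mul]
    exact congrArg _ ((lev n).rel i)
  · show b₀.repr (G f • b₀ l) i = constantCoeff (L f i l)
    refine sub_eq_zero.mp (IsHausdorff.haus (I := maximalIdeal O) inferInstance _ fun j => ?_)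
    rw [SModEq.zero, smul_eq_mul, Ideal.mul_top]
    have := finite_quotient_pow (O := O) j
    let Φ : R →+* Matrix (Fin d) (Fin d) (O ⧸ maximalIdeal O ^ j) :=
      (Ideal.Quotient.mk (maximalIdeal O ^ j)).mapMatrix.comp
        ((LinearMap.toMatrixAlgEquiv b₀).toAlgHom.comp
          (Algebra.lsmul O O M₀ : R →ₐ[O] Module.End O M₀)).toRingHom
    have hΦ : ∀ z : R, Φ z i l = Ideal.Quotient.mk _ (b₀.repr (z • b₀ l) i) := fun z => by
      simp [Φ, LinearMap.toMatrixAlgEquiv_apply]
    obtain ⟨n, h1, h2, hjn⟩ :=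
      (((hglim f (Nat.card (Matrix (Fin d) (Fin d) (O ⧸ maximalIdeal O ^ j)))).and
        ((hL f i l j).and (hU j)))).exists
    have h3 := map_eq_zero_of_mem_pow_card Φ h1
    rw [map_sub, sub_eq_zero] at h3
    have h4 := congrFun (congrFun h3 i) l
    rw [hΦ, hΦ, Ideal.Quotient.eq] at h4
    have h5 := Ideal.pow_le_pow_right hjn ((lev n).compat f i l (Rn n f i l) (hRn n f i l))
    have h6 := constantCoeff_mem_pow h2
    rw [map_sub] at h6
    have he : b₀.repr (G f • b₀ l) i - constantCoeff (L f i l) =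
        -(b₀.repr (gg n f • b₀ l) i - b₀.repr (G f • b₀ l) i) +
          (b₀.repr (gg n f • b₀ l) i - constantCoeff (Rn n f i l)) +
          (constantCoeff (Rn n f i l) - constantCoeff (L₀ f i l)) := by
      simp only [L, Matrix.of_apply]; ring
    rw [he]
    exact add_mem (add_mem (neg_mem h4) h5) h6

end Fermat.Agent.Lifting
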